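/-
S59lib / AuxPrime / ResCmp (helper1) — Project I.

**Residual comparison with the curve at ONE more prime.**  `ρ` a residual representation over a field `k` of
characteristic `p` whose Frobenius characteristic polynomials are `X² − a_ℓ(W) X + ℓ` at all primes `ℓ` outside a
finite set `S₀`.  Then the same holds at EVERY prime `r ≠ p` of good reduction of `W` (no matter whether
`r ∈ S₀`, and for every Frobenius element at every place over `r`).

Proof: helper3's comparison lemma `S58lib.Cmp.charpoly_map_eq_of_frobenius` (weak Chebotarev; no irreducibility)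
between the `p`-adic Tate module `T_p W` over `ℤ_p` and `ρ` over the field `k`, along `ℤ_p → 𝔽_p → k`, and
`TateFrob` at `r`.
-/
import Mathlib
import Fermat.Agent.S58lib.Cmp.Hres
import Fermat.Agent.S58lib.Tate.Transport
import Fermat.Agent.S58lib.Cnt.FrobCore

set_option autoImplicit false
set_option linter.unusedSectionVars false
set_option linter.style.haveILetI false

noncomputable section

namespace Fermat.Agent.S59lib.AuxPrime

open IsLocalRing Polynomial Fermat.Agent.S58lib Fermat.Agent.S58lib.Tate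

local notation "Qb" => AlgebraicClosure ℚ
local notation "GalQ" => (AlgebraicClosure ℚ ≃ₐ[ℚ] AlgebraicClosure ℚ)

/-- the ring homomorphism `ℤ_p → 𝔽_p → k` -/
def padicToField (p : ℕ) [Fact p.Prime] (k : Type) [Field k] [CharP k p] : ℤ_[p] →+* k :=
  (ZMod.castHom (dvd_refl p) k).comp PadicInt.toZMod

theorem padicToField_mem (p : ℕ) [Fact p.Prime] (k : Type) [Field k] [CharP k p] :
    ∀ a ∈ maximalIdeal ℤ_[p], padicToField p k a ∈ maximalIdeal k := by
  intro a ha
  rw [IsLocalRing.maximalIdeal_eq_bot, Ideal.mem_bot]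
  have h1 : PadicInt.toZMod a = 0 := by
    rw [← RingHom.mem_ker, PadicInt.ker_toZMod]
    exact ha
  unfold padicToField
  rw [RingHom.comp_apply, h1, map_zero]

/-- **Residual comparison at one more prime.** -/
theorem residual_charpoly_frobenius_of_good (W : WeierstrassCurve ℤ) (hΔ : W.Δ ≠ 0) (p : ℕ)
    [hp : Fact p.Prime] {k : Type} [Field k] [CharP k p] (ρ : ResidualGaloisRep k) (S₀ : Finset ℕ)
    (hρ : ∀ ℓ : ℕ, ℓ.Prime → ℓ ∉ S₀ → ∀ A : ValuationSubring Qb, A.LiesOverPrime ℓ →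
      ∀ φ : GalQ, A.IsFrobeniusAt φ ℓ →
        LinearMap.charpoly (ρ.ρ φ) = X ^ 2 - C (((W.apOfModel ℓ : ℤ) : k)) * X + C ((ℓ : ℕ) : k))
    {r : ℕ} (hr : r.Prime) (hrp : r ≠ p) (hgood : ¬ (r : ℤ) ∣ W.Δ)
    (A : ValuationSubring Qb) (hA : A.LiesOverPrime r) (σ : GalQ) (hσ : A.IsFrobeniusAt σ r) :
    LinearMap.charpoly (ρ.ρ σ) = X ^ 2 - C (((W.apOfModel r : ℤ) : k)) * X + C ((r : ℕ) : k) := by
  classical
  have hTF : TateFrob W (tateFam W hΔ) := tateFrob_of_frobCore Fermat.Agent.S58lib.Cnt.frobCore W hΔ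
  haveI : IsHausdorff (maximalIdeal k) k := Fermat.Agent.S58lib.Cmp.isHausdorff_maximalIdeal_field k
  set S₁ : Finset ℕ := insert p (S₀ ∪ W.Δ.natAbs.primeFactors) with hS₁
  have hkey := Fermat.Agent.S58lib.Cmp.charpoly_map_eq_of_frobenius (padicToField p k)
    (padicToField_mem p k) (tateFam W hΔ p) (GaloisRepAdic.ofResidualGaloisRep ρ) S₁ (by
      intro ℓ hℓ hℓS₁ B hB φ hφ
      have hℓp : ℓ ≠ p := fun h => hℓS₁ (h ▸ Finset.mem_insert_self _ _)
      have hℓS₀ : ℓ ∉ S₀ := fun h =>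
        hℓS₁ (Finset.mem_insert_of_mem (Finset.mem_union_left _ h))
      have hℓgood : ¬ (ℓ : ℤ) ∣ W.Δ := by
        intro hd
        apply hℓS₁
        refine Finset.mem_insert_of_mem (Finset.mem_union_right _ ?_)
        rw [Nat.mem_primeFactors]
        exact ⟨hℓ, Int.natCast_dvd.1 hd, Int.natAbs_ne_zero.2 hΔ⟩
      have h1 : LinearMap.charpoly ((GaloisRepAdic.ofResidualGaloisRep ρ).ρ φ) =
          X ^ 2 - C (((W.apOfModel ℓ : ℤ) : k)) * X + C ((ℓ : ℕ) : k) := hρ ℓ hℓ hℓS₀ B hB φ hφ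
      rw [h1, hTF p ℓ hℓ hℓp hℓgood B hB φ hφ, Fermat.Agent.S58lib.Cmp.map_quad_int]) σ
  have h2 : LinearMap.charpoly (ρ.ρ σ) =
      (LinearMap.charpoly ((tateFam W hΔ p).ρ σ)).map (padicToField p k) := hkey
  rw [h2, hTF p r hr hrp hgood A hA σ hσ, Fermat.Agent.S58lib.Cmp.map_quad_int]

end Fermat.Agent.S59lib.AuxPrime
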