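/-
S59lib / AuxPrime / CongrAt (helper1) — Project I.

**The congruence `a_r(g) ≡ a_r(W) mod 𝔪` at one more prime.**  `g` a normalized eigenform of level `M_g`,
`𝔪 ∋ p` a maximal ideal of `ℤ̄`, with `a_ℓ(g) ≡ a_ℓ(W) mod 𝔪` at all primes `ℓ` outside a finite set `S₀`.
Then the same congruence holds at EVERY prime `r ∤ M_g p` of good reduction of `W`.

Proof: the residual representation `ρ̄_{g,𝔪}` of `S29lib.Z.coreStatement` (exact Frobenius polynomials at all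
`ℓ ∤ M_g p`) against `AuxPrime/ResCmp`.
-/
import Mathlib
import Fermat.Agent.S29lib.Z.Final
import Fermat.Agent.Helper5.FrobExists
import Fermat.Agent.S59lib.AuxPrime.ResCmp

set_option autoImplicit false
set_option linter.unusedSectionVars false
set_option linter.style.haveILetI false

noncomputable section

namespace Fermat.Agent.S59lib.AuxPrime

open IsLocalRing Polynomial ModularFormClass CongruenceSubgroup Fermat.Agent.S29lib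

local notation "Qb" => AlgebraicClosure ℚ
local notation "GalQ" => (AlgebraicClosure ℚ ≃ₐ[ℚ] AlgebraicClosure ℚ)
local notation "Zb" => integralClosure ℤ ℂ

/-- comparing the linear coefficients of two monic quadratics -/
theorem quad_linear_coeff_eq {R : Type*} [CommRing R] {a b c d : R}
    (h : (X : R[X]) ^ 2 - C a * X + C b = X ^ 2 - C c * X + C d) : a = c := by
  have h1 := congrArg (fun P : R[X] => P.coeff 1) h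
  simp only [coeff_add, coeff_sub, coeff_X_pow, coeff_C_mul, coeff_X_one, coeff_C] at h1
  simpa using h1

/-- **the congruence at one more prime** -/
theorem exists_congr_at_good (W : WeierstrassCurve ℤ) (hΔ : W.Δ ≠ 0) (p : ℕ) [hp : Fact p.Prime]
    {Mg : ℕ} [NeZero Mg] (g : CuspForm (Gamma0 Mg) 2) (hg : g.IsNormalizedEigenform)
    (𝔪 : Ideal Zb) [h𝔪 : 𝔪.IsMaximal] (hp𝔪 : (p : Zb) ∈ 𝔪) (S₀ : Finset ℕ)
    (hcong : ∀ ℓ : ℕ, ℓ.Prime → ℓ ∉ S₀ →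
      ∃ a : Zb, (a : ℂ) = qCoeff g ℓ ∧ a - ((W.apOfModel ℓ : ℤ) : Zb) ∈ 𝔪)
    {r : ℕ} (hr : r.Prime) (hrp : r ≠ p) (hrM : ¬ r ∣ Mg) (hgood : ¬ (r : ℤ) ∣ W.Δ) :
    ∃ a : Zb, (a : ℂ) = qCoeff g r ∧ a - ((W.apOfModel r : ℤ) : Zb) ∈ 𝔪 := by
  classical
  obtain ⟨a, ha, ρ, -, hchar₀⟩ := Fermat.Agent.S29lib.Z.coreStatement Mg g hg p hp.out 𝔪 hp𝔪
  have hchar : ∀ (ℓ : ℕ) (hℓ : ℓ.Prime), ¬ ℓ ∣ Mg * p →
      ∀ A : ValuationSubring Qb, A.LiesOverPrime ℓ → ∀ σ : GalQ, A.IsFrobeniusAt σ ℓ →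
        LinearMap.charpoly (ρ.ρ σ) =
          X ^ 2 - C (Ideal.Quotient.mk 𝔪 (a ⟨ℓ, hℓ⟩)) * X + C ((ℓ : ℕ) : Zb ⧸ 𝔪) :=
    fun ℓ hℓ h A hA σ hσ => hchar₀ ℓ hℓ h A hA σ hσ
  haveI : CharP (Zb ⧸ 𝔪) p := charP_quot 𝔪 p hp.out hp𝔪
  have hnd : ∀ ℓ : ℕ, ℓ.Prime → ¬ ℓ ∣ Mg → ℓ ≠ p → ¬ ℓ ∣ Mg * p := by
    intro ℓ hℓ hℓM hℓp hd
    rcases (Nat.Prime.dvd_mul hℓ).1 hd with h | h
    · exact hℓM h
    · exact hℓp ((Nat.prime_dvd_prime_iff_eq hℓ hp.out).1 h)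
  set S₁ : Finset ℕ := insert p (S₀ ∪ Mg.primeFactors) with hS₁
  have hρ : ∀ ℓ : ℕ, ℓ.Prime → ℓ ∉ S₁ → ∀ A : ValuationSubring Qb, A.LiesOverPrime ℓ →
      ∀ φ : GalQ, A.IsFrobeniusAt φ ℓ →
        LinearMap.charpoly (ρ.ρ φ) =
          X ^ 2 - C (((W.apOfModel ℓ : ℤ) : Zb ⧸ 𝔪)) * X + C ((ℓ : ℕ) : Zb ⧸ 𝔪) := by
    intro ℓ hℓ hℓS₁ A hA φ hφ
    have hℓp : ℓ ≠ p := fun h => hℓS₁ (h ▸ Finset.mem_insert_self _ _)
    have hℓS₀ : ℓ ∉ S₀ := fun h => hℓS₁ (Finset.mem_insert_of_mem (Finset.mem_union_left _ h))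
    have hℓM : ¬ ℓ ∣ Mg := fun h => hℓS₁ (Finset.mem_insert_of_mem (Finset.mem_union_right _
      (Nat.mem_primeFactors.2 ⟨hℓ, h, NeZero.ne Mg⟩)))
    obtain ⟨b, hb, hb𝔪⟩ := hcong ℓ hℓ hℓS₀
    have hab : a ⟨ℓ, hℓ⟩ = b := by
      apply Subtype.ext
      rw [ha ⟨ℓ, hℓ⟩, hb]
    have hmk : Ideal.Quotient.mk 𝔪 (a ⟨ℓ, hℓ⟩) = ((W.apOfModel ℓ : ℤ) : Zb ⧸ 𝔪) := by
      rw [hab, ← sub_eq_zero, ← map_intCast (Ideal.Quotient.mk 𝔪), ← map_sub]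
      exact Ideal.Quotient.eq_zero_iff_mem.2 hb𝔪
    rw [hchar ℓ hℓ (hnd ℓ hℓ hℓM hℓp) A hA φ hφ, hmk]
  obtain ⟨A, σ, hA, hσ⟩ := Fermat.Agent.Helper5.exists_isFrobeniusAt r hr
  have h1 := residual_charpoly_frobenius_of_good W hΔ p ρ S₁ hρ hr hrp hgood A hA σ hσ
  have h2 := hchar r hr (hnd r hr hrM hrp) A hA σ hσ
  have h3 : Ideal.Quotient.mk 𝔪 (a ⟨r, hr⟩) = ((W.apOfModel r : ℤ) : Zb ⧸ 𝔪) :=
    quad_linear_coeff_eq (h2.symm.trans h1)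
  refine ⟨a ⟨r, hr⟩, ha ⟨r, hr⟩, ?_⟩
  rw [← Ideal.Quotient.eq_zero_iff_mem, map_sub, map_intCast, h3, sub_self]

end Fermat.Agent.S59lib.AuxPrime
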