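/-
S59lib / AuxPrime / Iface (helper1) — Project I, item (P3-e): ADDING and REMOVING an auxiliary prime.

Currency: `W.IsResiduallyModularOfLevel p M` (as in the frozen S38/S39/S40).

* `isResiduallyModularOfLevel_mul` (PROVED): residual modularity of level `M` gives residual modularity of
  every level `M * s`, `s ≠ 0` (stabilisation, `S43lib/Theta/Level`).  So every geometric block may add the
  auxiliary prime `r₀` to its level at will.
* `RemoveAuxStmt`: `r ∤ M p Δ`, `a_r(W)² ≢ (r+1)² mod p` (no level raising at `r`): residual modularity of level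
  `M r` gives residual modularity of level `M`.  (ANY prime `p`; NO semistability, NO irreducibility needed.)
  Proof (`AuxPrime/Remove`): newform `g` of the eigenform `f` of level `M r`; if `r ∤ level(g)` stabilise `g` to
  level `M`, the congruence at `ℓ = r` by comparison of `ρ̄_{g,𝔪}` (`S29lib.Z.coreStatement`) with `T_p W`
  (`S58lib.Cmp.charpoly_map_eq_of_frobenius`, `TateFrob`); if `r ∥ level(g)`: `S35` over a complete DVR whose
  prime is THE GIVEN `𝔪` (`AuxPrime/DvrAt`) gives the Frobenius polynomial `X² ∓ (r+1) X + r` at `r`, compared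
  with `X² − a_r(W) X + r` residually: `a_r(W) ≡ ±(r+1)`, contradiction.
-/
import Mathlib
import Fermat.Agent.S43lib.Theta.Level
import Fermat.Prelude.Def_FLTPrelim_ModularRep

set_option autoImplicit false

noncomputable section

namespace Fermat.Agent.S59lib.AuxPrime

open ModularFormClass CongruenceSubgroup

/-- **Adding primes to the level.** -/
theorem isResiduallyModularOfLevel_mul {W : WeierstrassCurve ℤ} {p M : ℕ} (hM : M ≠ 0) {s : ℕ}
    (hs : s ≠ 0) (h : W.IsResiduallyModularOfLevel p M) : W.IsResiduallyModularOfLevel p (M * s) := by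
  have : NeZero M := ⟨hM⟩
  obtain ⟨f, 𝔪, hf, h𝔪, hp𝔪, hcong⟩ := h
  obtain ⟨f', hf', hc⟩ := Fermat.Agent.S43lib.Theta.exists_eigenform_of_dvd (Dvd.intro s rfl)
    (Nat.mul_ne_zero hM hs) f hf
  refine ⟨f', 𝔪, hf', h𝔪, hp𝔪, fun ℓ hℓ hgood hℓMs hℓp => ?_⟩
  obtain ⟨a, ha, ha𝔪⟩ := hcong ℓ hℓ hgood (fun hd => hℓMs (hd.mul_right s)) hℓp
  exact ⟨a, by rw [ha, hc ℓ hℓ hℓMs], ha𝔪⟩

/-- **Removing an auxiliary prime from the level** (statement). -/
def RemoveAuxStmt : Prop :=
  ∀ (p : ℕ), p.Prime → ∀ (W : WeierstrassCurve ℤ), W.Δ ≠ 0 →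
    ∀ (M r : ℕ), M ≠ 0 → r.Prime → ¬ r ∣ M → r ≠ p → ¬ (r : ℤ) ∣ W.Δ →
      ¬ (p : ℤ) ∣ W.apOfModel r ^ 2 - ((r : ℤ) + 1) ^ 2 →
      W.IsResiduallyModularOfLevel p (M * r) → W.IsResiduallyModularOfLevel p M

end Fermat.Agent.S59lib.AuxPrime
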