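/-
S59lib / AuxPrime / DvrAt (helper1) — Project I.

**A complete discrete valuation ring at a GIVEN prime.**  `B` a domain of characteristic `0`, finite over `ℤ`
(e.g. the ring `ℤ[a_ℓ(g)]` of Hecke eigenvalues of an eigenform), `𝔮` a prime ideal of `B` containing `p`.
There are a complete DVR `𝒪'` of characteristic `0` with finite residue field of characteristic `p` and an
injective ring homomorphism `iota : B → 𝒪'` with `iota 𝔮 ⊆ 𝔪_{𝒪'}`.

(`S58lib.Mod.eigenData` gives such an `𝒪'` for SOME prime of `B` over `p`; residual statements — "modulo the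
given maximal ideal `𝔪` of `ℤ̄`" — need the prime to be prescribed.)

Proof.  `C = ℤ_p ⊗ B` is finite free over `ℤ_p`; `𝔐 = ker(C → B/𝔮)` is a prime of `C` over `(p)`; by going-down
(`C` is flat over `ℤ_p`) there is a prime `𝔓 ⊆ 𝔐` of `C` over `(0)`; `D = C/𝔓` is a domain, finite over `ℤ_p`,
containing `ℤ_p`; `𝒪'` = the integral closure of `ℤ_p` in `Frac D` (`S29lib.Dvr.exists_dvr_structure`);
`D → 𝒪'` is injective and integral, hence local, so the non-units `𝔐/𝔓` of `D` go to `𝔪_{𝒪'}`.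
-/
import Mathlib
import Fermat.Agent.S29lib.Dvr.IntegralClosure

set_option autoImplicit false
set_option linter.unusedSectionVars false
set_option linter.style.haveILetI false

open scoped TensorProduct

noncomputable section

namespace Fermat.Agent.S59lib.AuxPrime

open IsLocalRing Fermat.Agent.S29lib.Dvr

attribute [local instance] FractionRing.liftAlgebra

/-- **a complete DVR at a given prime of an order** -/
theorem exists_dvr_at_prime (p : ℕ) [hp : Fact p.Prime] (B : Type) [CommRing B] [IsDomain B]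
    [CharZero B] [Module.Finite ℤ B] (𝔮 : Ideal B) [h𝔮 : 𝔮.IsPrime] (hp𝔮 : (p : B) ∈ 𝔮) :
    ∃ (𝒪' : Type) (_ : CommRing 𝒪') (_ : IsDomain 𝒪') (_ : IsDiscreteValuationRing 𝒪')
      (_ : IsAdicComplete (maximalIdeal 𝒪') 𝒪') (_ : Finite (ResidueField 𝒪')) (_ : CharZero 𝒪'),
      (p : 𝒪') ∈ maximalIdeal 𝒪' ∧
      ∃ iota : B →+* 𝒪', Function.Injective iota ∧ ∀ x ∈ 𝔮, iota x ∈ maximalIdeal 𝒪' := by
  classical
  haveI : Finite (ResidueField ℤ_[p]) :=
    Finite.of_equiv _ (PadicInt.residueField (p := p)).symm.toEquiv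
  -- `B` is free over `ℤ`
  haveI : Module.Free ℤ B := inferInstance
  -- the residue field `κ = B/𝔮` as a `ℤ_p`-algebra
  set κ : Type := B ⧸ 𝔮 with hκ
  haveI : IsDomain κ := Ideal.Quotient.isDomain 𝔮
  have hpκ : (p : κ) = 0 := by
    rw [← map_natCast (Ideal.Quotient.mk 𝔮)]
    exact Ideal.Quotient.eq_zero_iff_mem.2 hp𝔮
  haveI : CharP κ p := by
    refine (CharP.charP_iff_prime_eq_zero hp.out).2 hpκ
  let f₁ : ℤ_[p] →+* κ := (ZMod.castHom (dvd_refl p) κ).comp PadicInt.toZMod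
  letI : Algebra ℤ_[p] κ := f₁.toAlgebra
  -- `C = ℤ_p ⊗ B → κ`
  let φ : (ℤ_[p] ⊗[ℤ] B) →ₐ[ℤ_[p]] κ :=
    Algebra.TensorProduct.lift (Algebra.ofId ℤ_[p] κ) (Ideal.Quotient.mkₐ ℤ 𝔮)
      (fun _ _ => Commute.all _ _)
  set 𝔐 : Ideal (ℤ_[p] ⊗[ℤ] B) := RingHom.ker φ.toRingHom with h𝔐
  haveI h𝔐prime : 𝔐.IsPrime := RingHom.ker_isPrime φ.toRingHom
  have hφB : ∀ b : B, φ ((1 : ℤ_[p]) ⊗ₜ[ℤ] b) = Ideal.Quotient.mk 𝔮 b := by
    intro b
    have h1 : φ ((1 : ℤ_[p]) ⊗ₜ[ℤ] b) =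
        (Algebra.ofId ℤ_[p] κ) 1 * (Ideal.Quotient.mkₐ ℤ 𝔮) b :=
      Algebra.TensorProduct.lift_tmul _ _ _ 1 b
    rw [h1, map_one, one_mul]
    rfl
  -- `𝔐` lies over `(p)`
  have hp𝔐 : algebraMap ℤ_[p] (ℤ_[p] ⊗[ℤ] B) (p : ℤ_[p]) ∈ 𝔐 := by
    rw [h𝔐, RingHom.mem_ker, map_natCast, map_natCast]
    exact hpκ
  haveI h𝔐over : 𝔐.LiesOver (maximalIdeal ℤ_[p]) := by
    refine ⟨?_⟩
    have hle : maximalIdeal ℤ_[p] ≤ 𝔐.under ℤ_[p] := by
      rw [PadicInt.maximalIdeal_eq_span_p, Ideal.span_le, Set.singleton_subset_iff]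
      exact hp𝔐
    have hne : 𝔐.under ℤ_[p] ≠ ⊤ := by
      have : (𝔐.under ℤ_[p]).IsPrime := Ideal.IsPrime.under ℤ_[p] 𝔐
      exact this.ne_top
    exact ((maximalIdeal.isMaximal ℤ_[p]).eq_of_le hne hle)
  -- going down
  haveI : (⊥ : Ideal ℤ_[p]).IsPrime := Ideal.isPrime_bot
  obtain ⟨𝔓, h𝔓le, h𝔓prime, h𝔓over⟩ :=
    Ideal.exists_ideal_le_liesOver_of_le (p := (⊥ : Ideal ℤ_[p])) (q := maximalIdeal ℤ_[p]) 𝔐 bot_le
  haveI := h𝔓prime
  -- the domain `D`
  set D : Type := (ℤ_[p] ⊗[ℤ] B) ⧸ 𝔓 with hD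
  haveI : IsDomain D := Ideal.Quotient.isDomain 𝔓
  haveI : Module.Finite ℤ_[p] D := inferInstance
  have hinj : Function.Injective (algebraMap ℤ_[p] D) := by
    rw [injective_iff_map_eq_zero]
    intro a ha
    have h1 : algebraMap ℤ_[p] (ℤ_[p] ⊗[ℤ] B) a ∈ 𝔓 := by
      rw [← Ideal.Quotient.eq_zero_iff_mem]
      exact ha
    have h2 : a ∈ 𝔓.under ℤ_[p] := h1
    rw [← h𝔓over.over] at h2
    exact h2
  haveI : FaithfulSMul ℤ_[p] D := (faithfulSMul_iff_algebraMap_injective ℤ_[p] D).2 hinj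
  haveI : Module.IsTorsionFree ℤ_[p] D := inferInstance
  haveI : FaithfulSMul ℤ_[p] (FractionRing D) := by
    rw [faithfulSMul_iff_algebraMap_injective, IsScalarTower.algebraMap_eq ℤ_[p] D (FractionRing D)]
    exact (IsFractionRing.injective D (FractionRing D)).comp hinj
  haveI : FiniteDimensional (FractionRing ℤ_[p]) (FractionRing D) := inferInstance
  obtain ⟨i1, i2, i3, i4, i5, -, i7, i8⟩ :=
    exists_dvr_structure ℤ_[p] (FractionRing ℤ_[p]) (FractionRing D)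
  have hintD : ∀ d : D, algebraMap D (FractionRing D) d ∈ OL ℤ_[p] (FractionRing D) := by
    intro d
    have h1 : IsIntegral ℤ_[p] d := Algebra.IsIntegral.isIntegral d
    exact h1.map (IsScalarTower.toAlgHom ℤ_[p] D (FractionRing D))
  let ι : D →+* OL ℤ_[p] (FractionRing D) :=
    (algebraMap D (FractionRing D)).codRestrict (OL ℤ_[p] (FractionRing D)).toSubring hintD
  have hιinj : Function.Injective ι := by
    intro a b hab
    apply IsFractionRing.injective D (FractionRing D)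
    exact congrArg Subtype.val hab
  have hιalg : ∀ a : ℤ_[p], ι (algebraMap ℤ_[p] D a) =
      algebraMap ℤ_[p] (OL ℤ_[p] (FractionRing D)) a := by
    intro a
    apply Subtype.ext
    exact (IsScalarTower.algebraMap_apply ℤ_[p] D (FractionRing D) a).symm
  -- `ι` is integral, hence local
  have hιint : ι.IsIntegral := by
    intro x
    have hx : IsIntegral ℤ_[p] x := Algebra.IsIntegral.isIntegral x
    obtain ⟨P, hPm, hP0⟩ := hx
    refine ⟨P.map (algebraMap ℤ_[p] D), hPm.map _, ?_⟩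
    rw [Polynomial.eval₂_map]
    have : ι.comp (algebraMap ℤ_[p] D) = algebraMap ℤ_[p] (OL ℤ_[p] (FractionRing D)) :=
      RingHom.ext hιalg
    rw [this]
    exact hP0
  haveI hιloc : IsLocalHom ι := hιint.isLocalHom hιinj
  -- the prime `p`
  have hp𝒪' : (p : OL ℤ_[p] (FractionRing D)) ∈ maximalIdeal (OL ℤ_[p] (FractionRing D)) := by
    rw [mem_maximalIdeal, mem_nonunits_iff]
    intro hu
    have h1 : (p : OL ℤ_[p] (FractionRing D)) =
        algebraMap ℤ_[p] (OL ℤ_[p] (FractionRing D)) (p : ℤ_[p]) := by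
      rw [map_natCast]
    rw [h1] at hu
    exact PadicInt.p_nonunit (isUnit_of_map_unit _ _ hu)
  -- the homomorphism
  let j : B →+* (ℤ_[p] ⊗[ℤ] B) :=
    (Algebra.TensorProduct.includeRight (R := ℤ) (A := ℤ_[p]) (B := B)).toRingHom
  let iota : B →+* OL ℤ_[p] (FractionRing D) := ι.comp ((Ideal.Quotient.mk 𝔓).comp j)
  refine ⟨OL ℤ_[p] (FractionRing D), inferInstance, i1, i2, i3, i4, i5, hp𝒪', iota, ?_, ?_⟩
  · -- injectivity
    rw [RingHom.injective_iff_ker_eq_bot]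
    haveI : Algebra.IsIntegral ℤ B := inferInstance
    apply Ideal.eq_bot_of_comap_eq_bot (R := ℤ)
    rw [eq_bot_iff]
    intro n hn
    rw [Ideal.mem_comap, RingHom.mem_ker, eq_intCast, map_intCast] at hn
    have h0 : ((n : ℤ) : OL ℤ_[p] (FractionRing D)) = 0 := hn
    haveI := i5
    rw [Int.cast_eq_zero] at h0
    rw [h0]
    exact Ideal.zero_mem _
  · -- `𝔮` goes to the maximal ideal
    intro x hx
    have h1 : j x ∈ 𝔐 := by
      rw [h𝔐, RingHom.mem_ker]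
      change φ ((1 : ℤ_[p]) ⊗ₜ[ℤ] x) = 0
      rw [hφB]
      exact Ideal.Quotient.eq_zero_iff_mem.2 hx
    have h2 : ¬ IsUnit (Ideal.Quotient.mk 𝔓 (j x)) := by
      intro hu
      obtain ⟨z, hz⟩ := hu.exists_right_inv
      obtain ⟨c, rfl⟩ := Ideal.Quotient.mk_surjective z
      rw [← map_mul, ← map_one (Ideal.Quotient.mk 𝔓), Ideal.Quotient.eq] at hz
      have h3 : (1 : ℤ_[p] ⊗[ℤ] B) ∈ 𝔐 := by
        have h4 : j x * c ∈ 𝔐 := Ideal.mul_mem_right _ _ h1
        have h5 := Ideal.sub_mem _ h4 (h𝔓le hz)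
        rwa [sub_sub_cancel] at h5
      exact h𝔐prime.ne_top ((Ideal.eq_top_iff_one _).2 h3)
    rw [mem_maximalIdeal, mem_nonunits_iff]
    intro hu
    exact h2 (hιloc.map_nonunit _ hu)

end Fermat.Agent.S59lib.AuxPrime
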