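/-
S59lib / AuxPrime / NotNew (helper1) — Project I.

**No newform in `𝔪` is new at the auxiliary prime.**  `g` a newform of level `M_g`, `𝔪 ∋ p` a maximal ideal of
`ℤ̄` with `a_ℓ(g) ≡ a_ℓ(W) mod 𝔪` at the good primes `ℓ ∤ N p` (`M_g ∣ N`); `r ≠ p` a prime of good reduction
of `W` with `a_r(W)² ≢ (r + 1)² mod p`.  Then `r ∥ M_g` is impossible.

Proof: `S35` for `g` over a complete DVR `𝒪'` receiving `ℤ[a_ℓ(g)]` AT THE GIVEN PRIME `𝔪 ∩ ℤ[a_ℓ(g)]`
(`AuxPrime/DvrAt`): every Frobenius element at `r ∥ M_g` has characteristic polynomial `X² ∓ (r+1) X + r`.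
The residual representation has the Frobenius polynomials of `W` outside a finite set, hence at `r` too
(`AuxPrime/ResCmp`): `a_r(W) ≡ ±(r+1) mod p`.
-/
import Mathlib
import Fermat.Agent.S35
import Fermat.Agent.S22
import Fermat.Agent.S58lib.Mod.EigenData
import Fermat.Agent.Helper5.FrobExists
import Fermat.Agent.S59lib.AuxPrime.DvrAt
import Fermat.Agent.S59lib.AuxPrime.ResCmp
import Fermat.Agent.S59lib.AuxPrime.CongrAt

set_option autoImplicit false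
set_option linter.unusedSectionVars false
set_option linter.style.haveILetI false

noncomputable section

namespace Fermat.Agent.S59lib.AuxPrime

open IsLocalRing Polynomial ModularFormClass CongruenceSubgroup CuspForm

local notation "Qb" => AlgebraicClosure ℚ
local notation "GalQ" => (AlgebraicClosure ℚ ≃ₐ[ℚ] AlgebraicClosure ℚ)
local notation "Zb" => integralClosure ℤ ℂ

/-- the image of `X² − a X + b` under a ring homomorphism -/
theorem map_quad_sub {R S : Type*} [CommRing R] [CommRing S] (f : R →+* S) (a b : R) :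
    ((X : R[X]) ^ 2 - C a * X + C b).map f = X ^ 2 - C (f a) * X + C (f b) := by
  simp only [Polynomial.map_add, Polynomial.map_sub, Polynomial.map_mul, Polynomial.map_pow,
    Polynomial.map_X, Polynomial.map_C]

/-- the image of `X² + a X + b` under a ring homomorphism, written with a minus sign -/
theorem map_quad_add {R S : Type*} [CommRing R] [CommRing S] (f : R →+* S) (a b : R) :
    ((X : R[X]) ^ 2 + C a * X + C b).map f = X ^ 2 - C (-(f a)) * X + C (f b) := by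
  simp only [Polynomial.map_add, Polynomial.map_mul, Polynomial.map_pow,
    Polynomial.map_X, Polynomial.map_C, map_neg]
  ring

/-- **no newform in `𝔪` is new at `r`** -/
theorem not_dvd_level_of_isNewform (W : WeierstrassCurve ℤ) (hΔ : W.Δ ≠ 0) (p : ℕ) [hp : Fact p.Prime]
    {N : ℕ} (hN0 : N ≠ 0) {Mg : ℕ} [NeZero Mg] (hMgN : Mg ∣ N)
    {g : CuspForm (Gamma0 Mg) 2} (hg : g.IsNewform)
    (𝔪 : Ideal Zb) [h𝔪 : 𝔪.IsMaximal] (hp𝔪 : (p : Zb) ∈ 𝔪)
    (hcong : ∀ ℓ : ℕ, ℓ.Prime → ¬ ℓ ∣ N → ℓ ≠ p → ¬ (ℓ : ℤ) ∣ W.Δ →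
      ∃ a : Zb, (a : ℂ) = qCoeff g ℓ ∧ a - ((W.apOfModel ℓ : ℤ) : Zb) ∈ 𝔪)
    {r : ℕ} (hr : r.Prime) (hrp : r ≠ p) (hgood : ¬ (r : ℤ) ∣ W.Δ) (hr2 : ¬ r ^ 2 ∣ Mg)
    (hlr : ¬ (p : ℤ) ∣ W.apOfModel r ^ 2 - ((r : ℤ) + 1) ^ 2) : ¬ r ∣ Mg := by
  classical
  intro hrMg
  -- the Hecke algebra away from `S`
  set S : Finset ℕ := insert p N.primeFactors with hS
  have hpS : p ∈ S := Finset.mem_insert_self _ _
  have hMS : ∀ q : ℕ, q.Prime → q ∣ Mg → q ∈ S := fun q hq hqM =>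
    Finset.mem_insert_of_mem (Nat.mem_primeFactors.2 ⟨hq, hqM.trans hMgN, hN0⟩)
  haveI : Module.Finite ℤ (CuspForm.heckeAlgebra Mg 2 (↑S : Set ℕ)) :=
    Fermat.Agent.S22.result Mg 2 ↑S
  set chig : CuspForm.heckeAlgebra Mg 2 (↑S : Set ℕ) →+* ℂ :=
    Fermat.Agent.S58lib.Mod.chiOf hg.1 ↑S with hchigdef
  have hchig : ∀ (ℓ : ℕ) (hℓ : ℓ.Prime) (hℓM : ¬ ℓ ∣ Mg) (hℓS : ℓ ∉ (↑S : Set ℕ)),
      chig (CuspForm.heckeAlgebra.T hℓ hℓM hℓS) = qCoeff g ℓ :=
    fun ℓ hℓ hℓM hℓS => Fermat.Agent.S58lib.Mod.chiOf_T hg.1 ↑S ℓ hℓ hℓM hℓS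
  -- the coefficient ring
  set B : Subring ℂ := chig.range with hB
  haveI : Module.Finite ℤ B :=
    Module.Finite.of_surjective chig.rangeRestrict.toAddMonoidHom.toIntLinearMap
      chig.rangeRestrict_surjective
  haveI : CharZero B := inferInstance
  have hBint : ∀ b : B, (b : ℂ) ∈ (integralClosure ℤ ℂ).toSubring := by
    intro b
    have h1 : IsIntegral ℤ b := Algebra.IsIntegral.isIntegral b
    exact h1.map (B.subtype.toIntAlgHom)
  let β : B →+* Zb := (B.subtype).codRestrict (integralClosure ℤ ℂ).toSubring hBint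
  have hβ : ∀ b : B, ((β b : Zb) : ℂ) = (b : ℂ) := fun b => rfl
  set 𝔮 : Ideal B := 𝔪.comap β with h𝔮
  haveI : 𝔮.IsPrime := Ideal.comap_isPrime β 𝔪
  have hp𝔮 : (p : B) ∈ 𝔮 := by
    rw [h𝔮, Ideal.mem_comap, map_natCast]
    exact hp𝔪
  -- the complete DVR at the prime `𝔮`
  obtain ⟨𝒪', _, _, _, _, _, _, hp𝒪', iota, -, hiota⟩ := exists_dvr_at_prime p B 𝔮 hp𝔮
  -- the Galois representation of `g`
  obtain ⟨𝒪'', _, _, _, _, _, _, _, _, hloc, -, ρ, hatt, hfrob⟩ :=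
    Fermat.Agent.S35.result hg p S 𝒪' hp𝒪' chig hchig iota hpS hMS
  have hp𝒪'' : (p : 𝒪'') ∈ maximalIdeal 𝒪'' := by
    have h1 : (p : 𝒪'') = algebraMap 𝒪' 𝒪'' (p : 𝒪') := (map_natCast _ p).symm
    rw [h1]
    exact map_nonunit (algebraMap 𝒪' 𝒪'') _ hp𝒪'
  have hpk : (p : ResidueField 𝒪'') = 0 := by
    rw [← map_natCast (residue 𝒪''), residue_eq_zero_iff]
    exact hp𝒪''
  haveI : CharP (ResidueField 𝒪'') p := (CharP.charP_iff_prime_eq_zero hp.out).2 hpk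
  -- the residual characteristic polynomials
  have hres : ∀ σ : GalQ, LinearMap.charpoly (ρ.residual.ρ σ) =
      (LinearMap.charpoly (ρ.ρ σ)).map (residue 𝒪'') := by
    intro σ
    have h1 : LinearMap.charpoly (ρ.residual.ρ σ) =
        (LinearMap.charpoly (ρ.ρ σ)).map (algebraMap 𝒪'' (ResidueField 𝒪'')) :=
      LinearMap.charpoly_baseChange (ρ.ρ σ) (ResidueField 𝒪'')
    rw [h1, ResidueField.algebraMap_eq]
  set S₁ : Finset ℕ := S ∪ W.Δ.natAbs.primeFactors with hS₁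
  have hρ : ∀ ℓ : ℕ, ℓ.Prime → ℓ ∉ S₁ → ∀ A : ValuationSubring Qb, A.LiesOverPrime ℓ →
      ∀ φ : GalQ, A.IsFrobeniusAt φ ℓ →
        LinearMap.charpoly (ρ.residual.ρ φ) =
          X ^ 2 - C (((W.apOfModel ℓ : ℤ) : ResidueField 𝒪'')) * X +
            C ((ℓ : ℕ) : ResidueField 𝒪'') := by
    intro ℓ hℓ hℓS₁ A hA φ hφ
    have hℓS' : ℓ ∉ S := fun h => hℓS₁ (Finset.mem_union_left _ h)
    have hℓS : ℓ ∉ (↑S : Set ℕ) := fun h => hℓS' (Finset.mem_coe.1 h)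
    have hℓp : ℓ ≠ p := fun h => hℓS' (h ▸ hpS)
    have hℓN : ¬ ℓ ∣ N := fun h =>
      hℓS' (Finset.mem_insert_of_mem (Nat.mem_primeFactors.2 ⟨hℓ, h, hN0⟩))
    have hℓM : ¬ ℓ ∣ Mg := fun h => hℓN (h.trans hMgN)
    have hℓgood : ¬ (ℓ : ℤ) ∣ W.Δ := by
      intro hd
      apply hℓS₁
      refine Finset.mem_union_right _ ?_
      rw [Nat.mem_primeFactors]
      exact ⟨hℓ, Int.natCast_dvd.1 hd, Int.natAbs_ne_zero.2 hΔ⟩
    obtain ⟨b, hb, hb𝔪⟩ := hcong ℓ hℓ hℓN hℓp hℓgood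
    -- the eigenvalue in `B` is congruent to `a_ℓ(W)` modulo `𝔮`
    set x : B := chig.rangeRestrict (CuspForm.heckeAlgebra.T hℓ hℓM hℓS) with hx
    have hxb : β x = b := by
      apply Subtype.ext
      rw [hβ, hb, hx, RingHom.coe_rangeRestrict, hchig ℓ hℓ hℓM hℓS]
    have hx𝔮 : x - ((W.apOfModel ℓ : ℤ) : B) ∈ 𝔮 := by
      rw [h𝔮, Ideal.mem_comap, map_sub, map_intCast, hxb]
      exact hb𝔪
    have h1 := hiota _ hx𝔮
    rw [map_sub, map_intCast] at h1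
    have h2 : algebraMap 𝒪' 𝒪'' (iota x) - ((W.apOfModel ℓ : ℤ) : 𝒪'') ∈ maximalIdeal 𝒪'' := by
      have h3 := map_nonunit (algebraMap 𝒪' 𝒪'') _ h1
      rwa [map_sub, map_intCast] at h3
    have h4 : residue 𝒪'' (algebraMap 𝒪' 𝒪'' (iota x)) =
        ((W.apOfModel ℓ : ℤ) : ResidueField 𝒪'') := by
      rw [← sub_eq_zero, ← map_intCast (residue 𝒪''), ← map_sub, residue_eq_zero_iff]
      exact h2
    rw [hres φ, hatt ℓ hℓ hℓM hℓS A hA φ hφ, map_quad_sub, map_natCast, RingHom.comp_apply,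
      ← hx, h4]
  -- Frobenius at `r`
  obtain ⟨A, σ, hA, hσ⟩ := Fermat.Agent.Helper5.exists_isFrobeniusAt r hr
  have h1 := residual_charpoly_frobenius_of_good W hΔ p ρ.residual S₁ hρ hr hrp hgood A hA σ hσ
  rw [hres σ] at h1
  have hcase : ((W.apOfModel r : ℤ) : ResidueField 𝒪'') = (r : ResidueField 𝒪'') + 1 ∨
      ((W.apOfModel r : ℤ) : ResidueField 𝒪'') = -((r : ResidueField 𝒪'') + 1) := by
    rcases hfrob r hr hrp hrMg hr2 A hA σ hσ with h2 | h2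
    · left
      rw [h2, map_quad_sub, map_add, map_natCast, map_one] at h1
      exact (quad_linear_coeff_eq h1).symm
    · right
      rw [h2, map_quad_add, map_add, map_natCast, map_one] at h1
      exact (quad_linear_coeff_eq h1).symm
  apply hlr
  rw [← CharP.intCast_eq_zero_iff (ResidueField 𝒪'') p]
  push_cast
  rcases hcase with h | h
  · rw [h]; ring
  · rw [h]; ring

end Fermat.Agent.S59lib.AuxPrime
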