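/-
S59lib / AuxPrime / Remove (helper1) — Project I, item (P3-e).

**`removeAux : RemoveAuxStmt`** — removing the auxiliary prime from the level:
`r ∤ M p Δ`, `a_r(W)² ≢ (r+1)² mod p`, `W` residually modular of level `M r` ⟹ residually modular of level `M`.

The newform `g` of the eigenform of level `M r` (`S58lib.Stab`); `r ∤ level(g)` by `AuxPrime/NotNew`
(`S35` at the given prime); stabilise `g` to level `M` (`S43lib/Theta/Level`), keep the SAME maximal ideal `𝔪`;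
the congruence at `ℓ = r` by `AuxPrime/CongrAt`.
-/
import Mathlib
import Fermat.Agent.S58lib.Stab.MinLevel
import Fermat.Agent.S43lib.Theta.Level
import Fermat.Agent.S59lib.AuxPrime.Iface
import Fermat.Agent.S59lib.AuxPrime.CongrAt
import Fermat.Agent.S59lib.AuxPrime.NotNew

set_option autoImplicit false
set_option linter.unusedSectionVars false
set_option linter.style.haveILetI false

noncomputable section

namespace Fermat.Agent.S59lib.AuxPrime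

open ModularFormClass CongruenceSubgroup CuspForm

local notation "Zb" => integralClosure ℤ ℂ

/-- **Removing the auxiliary prime from the level.** -/
theorem removeAux : RemoveAuxStmt := by
  classical
  intro p hp W hΔ M r hM hr hrM hrp hgood hlr hres
  haveI : Fact p.Prime := ⟨hp⟩
  obtain ⟨f, 𝔪, hf, h𝔪, hp𝔪, hcong⟩ := hres
  haveI := h𝔪
  have hN0 : M * r ≠ 0 := Nat.mul_ne_zero hM hr.ne_zero
  obtain ⟨Mg, hMgN, g, hg, hgf⟩ :=
    Fermat.Agent.S58lib.Stab.exists_isNewform_of_isNormalizedEigenform hN0 f hf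
  have hMg0 : Mg ≠ 0 := fun h => hN0 (by rw [h] at hMgN; exact zero_dvd_iff.mp hMgN)
  haveI : NeZero Mg := ⟨hMg0⟩
  -- the congruences of `g`
  have hcongg : ∀ ℓ : ℕ, ℓ.Prime → ¬ ℓ ∣ M * r → ℓ ≠ p → ¬ (ℓ : ℤ) ∣ W.Δ →
      ∃ a : Zb, (a : ℂ) = qCoeff g ℓ ∧ a - ((W.apOfModel ℓ : ℤ) : Zb) ∈ 𝔪 := by
    intro ℓ hℓ hℓN hℓp hℓgood
    obtain ⟨a, ha, ha𝔪⟩ := hcong ℓ hℓ hℓgood hℓN hℓp
    exact ⟨a, by rw [ha, hgf ℓ hℓ hℓN], ha𝔪⟩
  -- `r² ∤ M_g`
  have hr2 : ¬ r ^ 2 ∣ Mg := by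
    intro h
    have h1 : r * r ∣ M * r := by
      rw [← pow_two]
      exact h.trans hMgN
    exact hrM (Nat.dvd_of_mul_dvd_mul_right hr.pos h1)
  -- `r ∤ M_g`
  have hrMg : ¬ r ∣ Mg :=
    not_dvd_level_of_isNewform W hΔ p hN0 hMgN hg 𝔪 hp𝔪 hcongg hr hrp hgood hr2 hlr
  have hMgM : Mg ∣ M := by
    have hcop : Nat.Coprime Mg r := ((Nat.Prime.coprime_iff_not_dvd hr).2 hrMg).symm
    exact hcop.dvd_of_dvd_mul_right hMgN
  -- the eigenform of level `M`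
  obtain ⟨f', hf', hc⟩ := Fermat.Agent.S43lib.Theta.exists_eigenform_of_dvd hMgM hM g hg.1
  refine ⟨f', 𝔪, hf', h𝔪, hp𝔪, fun ℓ hℓ hℓgood hℓM hℓp => ?_⟩
  by_cases hℓr : ℓ = r
  · subst hℓr
    set S₀ : Finset ℕ := insert p ((M * ℓ).primeFactors ∪ W.Δ.natAbs.primeFactors) with hS₀
    have hcong' : ∀ q : ℕ, q.Prime → q ∉ S₀ →
        ∃ a : Zb, (a : ℂ) = qCoeff g q ∧ a - ((W.apOfModel q : ℤ) : Zb) ∈ 𝔪 := by
      intro q hq hqS₀
      refine hcongg q hq (fun h => hqS₀ ?_) (fun h => hqS₀ (h ▸ Finset.mem_insert_self _ _))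
        (fun h => hqS₀ ?_)
      · exact Finset.mem_insert_of_mem (Finset.mem_union_left _
          (Nat.mem_primeFactors.2 ⟨hq, h, hN0⟩))
      · refine Finset.mem_insert_of_mem (Finset.mem_union_right _ ?_)
        rw [Nat.mem_primeFactors]
        exact ⟨hq, Int.natCast_dvd.1 h, Int.natAbs_ne_zero.2 hΔ⟩
    obtain ⟨a, ha, ha𝔪⟩ :=
      exists_congr_at_good W hΔ p g hg.1 𝔪 hp𝔪 S₀ hcong' hℓ hℓp hrMg hℓgood
    exact ⟨a, by rw [ha, hc ℓ hℓ hℓM], ha𝔪⟩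
  · have hℓN : ¬ ℓ ∣ M * r := by
      intro h
      rcases (Nat.Prime.dvd_mul hℓ).1 h with h | h
      · exact hℓM h
      · exact hℓr ((Nat.prime_dvd_prime_iff_eq hℓ hr).1 h)
    obtain ⟨a, ha, ha𝔪⟩ := hcongg ℓ hℓ hℓN hℓp hℓgood
    exact ⟨a, by rw [ha, hc ℓ hℓ hℓM], ha𝔪⟩

end Fermat.Agent.S59lib.AuxPrime
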