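/-
S59lib / AuxPrime / Unram (helper1) — Project I, item (P3-e): the auxiliary prime `r₀` in the level.

**An adic representation with unipotent inertia at `v ≠ p`, residually unramified at `v`, with
`v ≢ 1 mod p` and `v · t² ≠ (1 + v)² · d` for the residual Frobenius trace `t` and determinant `d`
(the "no level raising at `v`" condition), is UNRAMIFIED at `v`.**

`A` a local ring, separated for the `𝔪`-adic topology, `p ∈ 𝔪`.  With `Φ = ρ(Frob_v)`, `Σ = ρ(σ_v)`
(`σ_v` the generator of the `p`-part of tame inertia, `B3/TameGlobal`), `N = Σ − 1`: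
`N² = 0` (unipotent), `Φ Σ = Σ^v Φ` (tame relation, `B3/AdicTame`), hence `Φ N = v N Φ` and
`(1 − v) · det Φ · ω(Φ) · N = 0` with `ω(Φ) = v (tr Φ)² − (1 + v)² det Φ` (`Loc/F3`).  So `N = 0`, and
`B3/UnramOfGen` concludes.

Use in Project I (p = 3): the auxiliary prime `r₀ ≡ 2 mod 3`, `a_{r₀}(W) ≢ 0 mod 3`, kept in every level.
`r₀ ≢ 1`, and `ω ≡ r₀ a_{r₀}² mod 3` is a unit since `1 + r₀ ≡ 0`; so by `S34` (unipotent inertia at
`r₀ ∥ N`) the Hecke–Galois representation of level `N r₀` is unramified at `r₀`: it is of type `Σ` with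
`r₀ ∉ Σ`, and `r₀` never has to be removed from the level.
-/
import Mathlib
import Fermat.Agent.S43lib.B3.UnramOfGen
import Fermat.Agent.S43lib.Loc.TameRel

set_option autoImplicit false
set_option linter.unusedSectionVars false

noncomputable section

namespace Fermat.Agent.S59lib.AuxPrime

open IsLocalRing Polynomial Fermat.Agent.TeamA.Rep Fermat.Agent.S43lib ExtCitation
open scoped Pointwise

local notation "Qb" => AlgebraicClosure ℚ
local notation "GalQ" => (AlgebraicClosure ℚ ≃ₐ[ℚ] AlgebraicClosure ℚ)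

/-! ### the matrix core -/

section Mat

variable {R : Type*} [CommRing R]

/-- **Matrix core.**  `Φ Σ = Σ^r Φ`, `Σ` unipotent, `1 − r`, `det Φ` and
`ω(Φ) = r (tr Φ)² − (1 + r)² det Φ` units: then `Σ = 1`. -/
theorem eq_one_of_tame_of_isUnit (Φ S : Matrix (Fin 2) (Fin 2) R) (r : ℕ)
    (htame : Φ * S = S ^ r * Φ) (htr : S.trace = 2) (hdet : S.det = 1)
    (hr : IsUnit (1 - (r : R))) (hd : IsUnit Φ.det)
    (hω : IsUnit (Loc.omegaOf Φ (r : R))) : S = 1 := by
  have h1 := Loc.mul_sub_one_eq_of_tame Φ S r htame htr hdet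
  have h2 := Loc.one_sub_mul_det_mul_omega_smul_eq_zero Φ (S - 1) (r : R) h1
  have hu : IsUnit ((1 - (r : R)) * (Φ.det * Loc.omegaOf Φ (r : R))) := hr.mul (hd.mul hω)
  rw [← sub_eq_zero]
  ext i j
  have h3 := congrFun (congrFun h2 i) j
  rw [Matrix.smul_apply, Matrix.zero_apply, smul_eq_mul] at h3
  rw [Matrix.zero_apply]
  exact (hu.mul_right_eq_zero).1 h3

/-- trace and determinant of a `2 × 2` matrix with characteristic polynomial `X² − t X + d` -/
theorem trace_det_of_charpoly_eq_quad [Nontrivial R] (M : Matrix (Fin 2) (Fin 2) R) (t d : R)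
    (h : M.charpoly = X ^ 2 - C t * X + C d) : M.trace = t ∧ M.det = d := by
  rw [Matrix.charpoly_fin_two] at h
  have c1 := congrArg (fun f => Polynomial.coeff f 1) h
  have c0 := congrArg (fun f => Polynomial.coeff f 0) h
  simp only [coeff_add, coeff_sub, coeff_X_pow, coeff_C_mul, coeff_X_one, coeff_C_succ,
    coeff_X_zero, coeff_C_zero] at c1 c0
  norm_num at c1 c0
  exact ⟨c1, c0⟩

/-- trace and determinant of a `2 × 2` matrix with characteristic polynomial `(X − 1)²` -/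
theorem trace_det_of_charpoly_eq [Nontrivial R] (M : Matrix (Fin 2) (Fin 2) R)
    (h : M.charpoly = (X - 1) ^ 2) : M.trace = 2 ∧ M.det = 1 := by
  refine trace_det_of_charpoly_eq_quad M 2 1 ?_
  rw [h, map_one, map_ofNat]; ring

end Mat

/-! ### units -/

section Units

variable {A : Type} [CommRing A] [IsLocalRing A]

/-- `1 − v` is a unit of a local ring of residue characteristic `p` when `v ≢ 1 mod p` -/
theorem isUnit_one_sub_natCast {p : ℕ} (hp : p.Prime) (hpA : (p : A) ∈ maximalIdeal A) {v : ℕ}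
    (hv : ¬ v ≡ 1 [MOD p]) : IsUnit (1 - (v : A)) := by
  have hcop : IsCoprime ((1 : ℤ) - (v : ℤ)) (p : ℤ) := by
    rw [Int.isCoprime_iff_gcd_eq_one]
    have hpZ : Prime (p : ℤ) := Nat.prime_iff_prime_int.1 hp
    by_contra hne
    have hdvd : (p : ℤ) ∣ 1 - (v : ℤ) := by
      have h1 : ((Int.gcd (1 - (v : ℤ)) (p : ℤ) : ℕ) : ℤ) ∣ (p : ℤ) := Int.gcd_dvd_right _ _
      have h2 : ((Int.gcd (1 - (v : ℤ)) (p : ℤ) : ℕ) : ℤ) ∣ 1 - (v : ℤ) := Int.gcd_dvd_left _ _
      have h3 : Int.gcd (1 - (v : ℤ)) (p : ℤ) ∣ p := Int.natCast_dvd_natCast.1 h1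
      rcases (Nat.dvd_prime hp).1 h3 with h4 | h4
      · exact absurd h4 hne
      · rw [h4] at h2
        exact h2
    apply hv
    have h5 : (v : ℤ) ≡ 1 [ZMOD (p : ℤ)] := (Int.modEq_iff_dvd).2 hdvd
    exact Int.natCast_modEq_iff.1 (by exact_mod_cast h5)
  obtain ⟨a, b, hab⟩ := hcop
  have h1 : ((a : ℤ) : A) * (1 - (v : A)) + ((b : ℤ) : A) * (p : A) = 1 := by
    have := congrArg (fun z : ℤ => (z : A)) hab
    push_cast at this
    exact this
  have h2 : ((a : ℤ) : A) * (1 - (v : A)) = 1 - ((b : ℤ) : A) * (p : A) := by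
    linear_combination h1
  have h3 : IsUnit (((a : ℤ) : A) * (1 - (v : A))) := by
    rw [h2]
    by_contra hnu
    have h4 : (1 - ((b : ℤ) : A) * (p : A)) ∈ maximalIdeal A := (mem_maximalIdeal _).2 hnu
    have h5 : ((b : ℤ) : A) * (p : A) ∈ maximalIdeal A := Ideal.mul_mem_left _ _ hpA
    have h6 : (1 : A) ∈ maximalIdeal A := by
      have := Ideal.add_mem _ h4 h5
      rwa [sub_add_cancel] at this
    exact (Ideal.ne_top_iff_one _).1 (maximalIdeal.isMaximal A).ne_top h6
  exact isUnit_of_mul_isUnit_right h3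

end Units

/-! ### the representation-theoretic statement -/

section Rep

variable {A : Type} [CommRing A] [IsLocalRing A]
variable (p : ℕ) [hp : Fact p.Prime]

/-- **Core form** (hypotheses on `ρ(Φ_v)`, `Φ_v = B3.globFrobAt v`). -/
theorem isUnramifiedAt_of_isUnipotentOnInertiaAt_core [IsHausdorff (maximalIdeal A) A]
    (hpA : (p : A) ∈ maximalIdeal A) (ρ : GaloisRepAdic A) (v : Nat.Primes) (hpv : p ≠ (v : ℕ))
    (hur : ρ.residual.IsUnramifiedAt (v : ℕ)) (huni : ρ.IsUnipotentOnInertiaAt (v : ℕ))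
    (hv1 : IsUnit (1 - (((v : ℕ) : ℕ) : A)))
    (hω : IsUnit ((((v : ℕ) : ℕ) : A) * (LinearMap.trace A ρ.V (ρ.ρ (B3.globFrobAt v))) ^ 2 -
      (1 + (((v : ℕ) : ℕ) : A)) ^ 2 * LinearMap.det (ρ.ρ (B3.globFrobAt v)))) :
    ρ.IsUnramifiedAt (v : ℕ) := by
  let b : Module.Basis (Fin 2) A ρ.V := Module.finBasisOfFinrankEq A ρ.V ρ.finrank_eq
  refine B3.unram_of_globGen_eq_one p hpA ρ b v hpv hur ?_
  have htame := B3.matOf_tame_relation p hpA ρ b v hpv hur
  have hch : (matOf ρ b (B3.globGenAt v p)).charpoly = (X - 1) ^ 2 := by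
    unfold matOf
    rw [LinearMap.charpoly_toMatrix]
    exact huni _ (Fermat.Agent.S56lib.TWSel.primeLocalPlace_liesOverPrime v) _
      (B3.globGenAt_mem_inertia v p)
  obtain ⟨htr, hdet⟩ := trace_det_of_charpoly_eq _ hch
  have hdΦ : (matOf ρ b (B3.globFrobAt v)).det = LinearMap.det (ρ.ρ (B3.globFrobAt v)) := by
    unfold matOf
    rw [LinearMap.det_toMatrix]
  have htΦ : (matOf ρ b (B3.globFrobAt v)).trace = LinearMap.trace A ρ.V (ρ.ρ (B3.globFrobAt v)) := by
    unfold matOf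
    rw [LinearMap.trace_eq_matrix_trace A b]
  refine eq_one_of_tame_of_isUnit _ _ (v : ℕ) htame htr hdet hv1 ?_ ?_
  · have h1 : matOf ρ b (B3.globFrobAt v) * matOf ρ b (B3.globFrobAt v)⁻¹ = 1 := by
      rw [← matOf_mul, mul_inv_cancel, matOf_one]
    have h2 := congrArg Matrix.det h1
    rw [Matrix.det_mul, Matrix.det_one] at h2
    exact IsUnit.of_mul_eq_one _ h2
  · unfold Loc.omegaOf
    rw [hdΦ, htΦ]
    exact hω

/-- trace and determinant of an endomorphism of a free module of rank two with characteristic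
polynomial `X² − t X + d` -/
theorem trace_det_of_linearMap_charpoly {k : Type} [Field k] {V : Type} [AddCommGroup V] [Module k V]
    [Module.Finite k V] (hV : Module.finrank k V = 2) (f : Module.End k V) (t d : k)
    (h : LinearMap.charpoly f = X ^ 2 - C t * X + C d) :
    LinearMap.trace k V f = t ∧ LinearMap.det f = d := by
  let b : Module.Basis (Fin 2) k V := Module.finBasisOfFinrankEq k V hV
  have h1 : (LinearMap.toMatrix b b f).charpoly = X ^ 2 - C t * X + C d := by
    rw [LinearMap.charpoly_toMatrix]; exact h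
  obtain ⟨h2, h3⟩ := trace_det_of_charpoly_eq_quad _ t d h1
  rw [LinearMap.trace_eq_matrix_trace k b, ← LinearMap.det_toMatrix b]
  exact ⟨h2, h3⟩

/-- for a residual representation unramified at `ℓ`, the trace and the determinant of Frobenius at `ℓ`
do not depend on the place over `ℓ` or on the Frobenius element -/
theorem residual_trace_det_frobenius_eq {k : Type} [Field k] (ρbar : ResidualGaloisRep k) {ℓ : ℕ}
    (hℓ : ℓ.Prime) (hur : ρbar.IsUnramifiedAt ℓ) {P P' : ValuationSubring Qb}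
    (hP : P.LiesOverPrime ℓ) (hP' : P'.LiesOverPrime ℓ) {σ σ' : GalQ}
    (hσ : P.IsFrobeniusAt σ ℓ) (hσ' : P'.IsFrobeniusAt σ' ℓ) :
    LinearMap.trace k ρbar.V (ρbar.ρ σ') = LinearMap.trace k ρbar.V (ρbar.ρ σ) ∧
      LinearMap.det (ρbar.ρ σ') = LinearMap.det (ρbar.ρ σ) := by
  obtain ⟨g, hg⟩ : ∃ g : GalQ, P' = g • P :=
    Fermat.Agent.S56lib.TWSel.exists_smul_eq_of_liesOverPrime hℓ hP hP'
  have h1 : (g • P).IsFrobeniusAt (g * σ * g⁻¹) ℓ := Fermat.Agent.S56lib.TWSel.isFrobeniusAt_conj hσ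
  rw [← hg] at h1
  have h2 := Fermat.Agent.S56lib.TWSel.inv_mul_mem_inertia_of_isFrobeniusAt h1 hσ'
  have h3 := hur P' hP' _ h2
  have h4 : ρbar.ρ σ' = ρbar.ρ g * ρbar.ρ σ * ρbar.ρ g⁻¹ := by
    have e : σ' = (g * σ * g⁻¹) * ((g * σ * g⁻¹)⁻¹ * σ') := by group
    rw [e, map_mul, h3, mul_one, map_mul, map_mul]
  have h5 : ρbar.ρ g⁻¹ * ρbar.ρ g = 1 := by rw [← map_mul, inv_mul_cancel, map_one]
  constructor
  · rw [h4, mul_assoc, LinearMap.trace_mul_comm, mul_assoc, h5, mul_one]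
  · rw [h4, map_mul, map_mul, mul_comm (LinearMap.det (ρbar.ρ g)), mul_assoc, ← map_mul,
      mul_eq_one_comm.1 h5, map_one, mul_one]

/-- **Residual form.**  `A` local, `𝔪`-adically separated, of residue characteristic `p`; `ρ` an adic
representation with unipotent inertia at the prime `v ≠ p`, `v ≢ 1 mod p`, residually unramified at `v`,
such that the characteristic polynomial `X² − t X + d` of SOME residual Frobenius at `v` satisfies
`v t² ≠ (1 + v)² d`.  Then `ρ` is unramified at `v`. -/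
theorem isUnramifiedAt_of_isUnipotentOnInertiaAt [IsHausdorff (maximalIdeal A) A]
    (hpA : (p : A) ∈ maximalIdeal A) (ρ : GaloisRepAdic A) {v : ℕ} (hv : v.Prime) (hpv : p ≠ v)
    (hv1 : ¬ v ≡ 1 [MOD p])
    (hur : ρ.residual.IsUnramifiedAt v) (huni : ρ.IsUnipotentOnInertiaAt v)
    (P : ValuationSubring Qb) (hP : P.LiesOverPrime v) (σ : GalQ) (hσ : P.IsFrobeniusAt σ v)
    (t d : ResidueField A)
    (hch : LinearMap.charpoly (ρ.residual.ρ σ) = X ^ 2 - C t * X + C d)
    (hω : (v : ResidueField A) * t ^ 2 ≠ (1 + (v : ResidueField A)) ^ 2 * d) :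
    ρ.IsUnramifiedAt v := by
  set v' : Nat.Primes := ⟨v, hv⟩ with hv'
  have hvv : ((v' : ℕ) : ℕ) = v := rfl
  obtain ⟨ht, hd⟩ := trace_det_of_linearMap_charpoly ρ.residual.finrank_eq _ t d hch
  obtain ⟨ht', hd'⟩ := residual_trace_det_frobenius_eq ρ.residual hv hur hP
    (Fermat.Agent.S56lib.TWSel.primeLocalPlace_liesOverPrime v') hσ (B3.globFrobAt_isFrobeniusAt v')
  have e1 : LinearMap.trace (ResidueField A) ρ.residual.V (ρ.residual.ρ (B3.globFrobAt v')) =
      algebraMap A (ResidueField A) (LinearMap.trace A ρ.V (ρ.ρ (B3.globFrobAt v'))) :=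
    LinearMap.trace_baseChange (ρ.ρ (B3.globFrobAt v')) (ResidueField A)
  have e2 : LinearMap.det (ρ.residual.ρ (B3.globFrobAt v')) =
      algebraMap A (ResidueField A) (LinearMap.det (ρ.ρ (B3.globFrobAt v'))) :=
    LinearMap.det_baseChange (ρ.ρ (B3.globFrobAt v'))
  rw [e1, ht] at ht'
  rw [e2, hd] at hd'
  refine isUnramifiedAt_of_isUnipotentOnInertiaAt_core p hpA ρ v' hpv hur huni
    (isUnit_one_sub_natCast hp.out hpA hv1) ?_
  rw [← residue_ne_zero_iff_isUnit, hvv]
  rw [ResidueField.algebraMap_eq] at ht' hd'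
  rw [map_sub, map_mul, map_mul, map_pow, map_pow, map_add, map_one, map_natCast, ht', hd']
  exact sub_ne_zero.2 hω

end Rep

end Fermat.Agent.S59lib.AuxPrime
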