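/-
S59lib / AuxPrime / Hecke (helper1) — Project I, item (P3-e).

**The Hecke–Galois representation of a level `N` with `r ∥ N` is UNRAMIFIED at `r`** as soon as
`r ≢ 1 mod p`, the residual representation is unramified at `r`, and the characteristic polynomial
`X² − t X + d` of a residual Frobenius at `r` satisfies `r t² ≠ (1 + r)² d` (no level raising at `r`).

`S34` (unipotent inertia at `r ∥ N`) + `AuxPrime/Unram`.  Consequently the Hecke–Galois datum of level
`N_Σ · r₀` is of type `Σ` with `r₀ ∉ Σ`: the auxiliary prime never has to be removed from the level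
(the final step `Out.mlc1_of_char` accepts every cube-free level `N` with `p² ∤ N`).
-/
import Mathlib
import Fermat.Agent.S34
import Fermat.Agent.S59lib.AuxPrime.Unram

set_option autoImplicit false
set_option linter.unusedSectionVars false

noncomputable section

namespace Fermat.Agent.S59lib.AuxPrime

open IsLocalRing Polynomial

local notation "Qb" => AlgebraicClosure ℚ
local notation "GalQ" => (AlgebraicClosure ℚ ≃ₐ[ℚ] AlgebraicClosure ℚ)

/-- **The auxiliary prime is unramified in the Hecke–Galois representation.** -/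
theorem heckeDatum_isUnramifiedAt
    {𝒪 : Type} [CommRing 𝒪] [IsDomain 𝒪] [IsDiscreteValuationRing 𝒪]
    [IsAdicComplete (maximalIdeal 𝒪) 𝒪] [Finite (ResidueField 𝒪)] [CharZero 𝒪]
    {p : ℕ} (hp : p.Prime) (hp𝒪 : (p : 𝒪) ∈ maximalIdeal 𝒪)
    {N : ℕ} [NeZero N] {S : Finset ℕ} (hpS : p ∈ S) (hNS : ∀ q : ℕ, q.Prime → q ∣ N → q ∈ S)
    {θ : CuspForm.heckeAlgebra N 2 (↑S : Set ℕ) →+* ResidueField 𝒪}
    {T : Type} [CommRing T] [IsLocalRing T] [IsNoetherianRing T]
    [IsAdicComplete (maximalIdeal T) T] [Algebra 𝒪 T] [IsLocalHom (algebraMap 𝒪 T)]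
    [Module.Finite 𝒪 T] [Module.Free 𝒪 T]
    (H : CuspForm.HeckeGaloisRepDatum N (↑S : Set ℕ) 𝒪 θ T)
    (r : ℕ) (hr : r.Prime) (hrp : r ≠ p) (hrN : r ∣ N) (hr2 : ¬ r ^ 2 ∣ N)
    (hr1 : ¬ r ≡ 1 [MOD p]) (hur : H.ρ.residual.IsUnramifiedAt r)
    (P : ValuationSubring Qb) (hP : P.LiesOverPrime r) (σ : GalQ) (hσ : P.IsFrobeniusAt σ r)
    (t d : ResidueField T)
    (hch : LinearMap.charpoly (H.ρ.residual.ρ σ) = X ^ 2 - C t * X + C d)
    (hω : (r : ResidueField T) * t ^ 2 ≠ (1 + (r : ResidueField T)) ^ 2 * d) :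
    H.ρ.IsUnramifiedAt r := by
  have : Fact p.Prime := ⟨hp⟩
  have hpT : (p : T) ∈ maximalIdeal T := by
    have h1 : (p : T) = algebraMap 𝒪 T (p : 𝒪) := (map_natCast (algebraMap 𝒪 T) p).symm
    rw [h1, mem_maximalIdeal, mem_nonunits_iff]
    intro hu
    exact ((mem_maximalIdeal _).1 hp𝒪) (isUnit_of_map_unit (algebraMap 𝒪 T) _ hu)
  have huni := Fermat.Agent.S34.result hp hp𝒪 hpS hNS H r hr hrp hrN hr2
  exact isUnramifiedAt_of_isUnipotentOnInertiaAt p hpT H.ρ hr (Ne.symm hrp) hr1 hur huni P hP σ hσ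
    t d hch hω

end Fermat.Agent.S59lib.AuxPrime
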